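import Mathlib
import Fermat.Prelude.Def_FLTPrelim_Modularity

/-!
# S58, leaf H2 (helper38): `a_q(W) ≠ ± (q + 1)`

For an integral Weierstrass equation `W` and a prime `q` (no good-reduction hypothesis):
`1 ≤ #W(𝔽_q) ≤ 2 q + 1` (the point at infinity; at most two `y` for every `x`), hence
`a_q = q + 1 - #W(𝔽_q)` is neither `q + 1` nor `-(q + 1)`.
-/

set_option autoImplicit false
set_option linter.unusedSectionVars false
set_option linter.style.haveILetI false

open Polynomial

namespace Fermat.Agent.S58

section Count

variable {F : Type*} [Field F] [Fintype F] [DecidableEq F] (W : WeierstrassCurve.Affine F)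

/-- the quadratic polynomial in `Y` cut out by the Weierstrass equation at `x` -/
noncomputable def apQuad (x : F) : F[X] :=
  X ^ 2 + C (W.a₁ * x + W.a₃) * X - C (x ^ 3 + W.a₂ * x ^ 2 + W.a₄ * x + W.a₆)

theorem apQuad_natDegree (x : F) : (apQuad W x).natDegree = 2 := by
  unfold apQuad
  compute_degree!

theorem apQuad_ne_zero (x : F) : apQuad W x ≠ 0 := by
  intro h
  have := apQuad_natDegree W x
  rw [h, natDegree_zero] at this
  omega

theorem apQuad_isRoot {x y : F} (h : W.Equation x y) : (apQuad W x).IsRoot y := by
  rw [WeierstrassCurve.Affine.equation_iff] at h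
  rw [IsRoot.def, apQuad]
  simp only [eval_add, eval_sub, eval_mul, eval_pow, eval_X, eval_C]
  linear_combination h

/-- the affine solutions, as a finite set of pairs -/
noncomputable def apSol : Finset (F × F) :=
  (Finset.univ : Finset F).biUnion fun x => (apQuad W x).roots.toFinset.image fun y => (x, y)

theorem apSol_card_le : (apSol W).card ≤ 2 * Fintype.card F := by
  unfold apSol
  refine le_trans Finset.card_biUnion_le ?_
  have h : ∀ x ∈ (Finset.univ : Finset F),
      ((apQuad W x).roots.toFinset.image fun y => (x, y)).card ≤ 2 := by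
    intro x _
    refine le_trans Finset.card_image_le ?_
    refine le_trans (Multiset.toFinset_card_le _) ?_
    have := (apQuad W x).card_roots'
    rw [apQuad_natDegree] at this
    exact this
  refine le_trans (Finset.sum_le_sum h) ?_
  rw [Finset.sum_const, Finset.card_univ, smul_eq_mul, mul_comm]

theorem mem_apSol {x y : F} (h : W.Equation x y) : (x, y) ∈ apSol W := by
  unfold apSol
  rw [Finset.mem_biUnion]
  refine ⟨x, Finset.mem_univ x, ?_⟩
  rw [Finset.mem_image]
  refine ⟨y, ?_, rfl⟩
  rw [Multiset.mem_toFinset, mem_roots (apQuad_ne_zero W x)]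
  exact apQuad_isRoot W h

/-- a point as an optional pair -/
def apPair : W.Point → Option (F × F)
  | .zero => none
  | .some x y _ => Option.some (x, y)

theorem apPair_injective : Function.Injective (apPair W) := by
  rintro (_ | ⟨x₁, y₁, h₁⟩) (_ | ⟨x₂, y₂, h₂⟩) h <;>
    simp only [apPair, Option.some.injEq, Prod.mk.injEq, reduceCtorEq] at h
  · rfl
  · obtain ⟨rfl, rfl⟩ := h; rfl

theorem apPair_mem (P : W.Point) : apPair W P ∈ Finset.insertNone (apSol W) := by
  rcases P with _ | ⟨x, y, h⟩
  · exact Finset.none_mem_insertNone
  · rw [apPair, Finset.some_mem_insertNone]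
    exact mem_apSol W h.1

/-- **At most `2 q + 1` points.** -/
theorem natCard_point_le : Nat.card W.Point ≤ 2 * Fintype.card F + 1 := by
  classical
  haveI : Finite W.Point := Finite.of_injective _ (apPair_injective W)
  haveI : Fintype W.Point := Fintype.ofFinite _
  rw [Nat.card_eq_fintype_card, ← Finset.card_univ]
  have h1 : (Finset.univ : Finset W.Point).card ≤ (Finset.insertNone (apSol W)).card :=
    Finset.card_le_card_of_injOn (apPair W) (fun P _ => apPair_mem W P)
      (fun a _ b _ h => apPair_injective W h)
  rw [Finset.card_insertNone] at h1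
  exact le_trans h1 (Nat.succ_le_succ (apSol_card_le W))

/-- **At least one point.** -/
theorem natCard_point_pos : 0 < Nat.card W.Point := by
  haveI : Finite W.Point := Finite.of_injective _ (apPair_injective W)
  haveI : Nonempty W.Point := ⟨0⟩
  exact Nat.card_pos

end Count

/-- **Leaf H2**: the trace of Frobenius of an integral Weierstrass equation at a prime `q` is
neither `q + 1` nor `-(q + 1)`. -/
theorem apOfModel_ne_add_one (W : WeierstrassCurve ℤ) (q : ℕ) [Fact q.Prime] :
    W.apOfModel q ≠ (q : ℤ) + 1 ∧ W.apOfModel q ≠ -((q : ℤ) + 1) := by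
  classical
  have hq : Nat.card (ZMod q) = q := Nat.card_zmod q
  have h1 := natCard_point_pos (W.reductionMod q).toAffine
  have h2 := natCard_point_le (W.reductionMod q).toAffine
  rw [ZMod.card] at h2
  have hap : W.apOfModel q = (q : ℤ) + 1 - (Nat.card (W.reductionMod q).toAffine.Point : ℤ) := by
    rw [WeierstrassCurve.apOfModel, WeierstrassCurve.traceOfFrobenius, hq, WeierstrassCurve.card]
  constructor
  · intro h
    rw [hap] at h
    have : (Nat.card (W.reductionMod q).toAffine.Point : ℤ) = 0 := by linarith
    have : Nat.card (W.reductionMod q).toAffine.Point = 0 := by exact_mod_cast this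
    omega
  · intro h
    rw [hap] at h
    have : (Nat.card (W.reductionMod q).toAffine.Point : ℤ) = 2 * (q : ℤ) + 2 := by linarith
    have : Nat.card (W.reductionMod q).toAffine.Point = 2 * q + 2 := by exact_mod_cast this
    omega

end Fermat.Agent.S58
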