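import Mathlib
import Fermat.Prelude.Def_GaloisRep_Adic
import Fermat.Agent.Lib.TraceRigidity.GaloisRep

/-!
# S58: a converse of Burnside's lemma for `GaloisRepAdic`

If four matrices of a representation `ρ : GaloisRepAdic A` form a basis of `M₂(A)` (unit
determinant of the coordinate matrix), the residual representation is absolutely irreducible.
Since the Gram matrix of the trace form only depends on the traces, absolute irreducibility of the
reduction is a property of the trace function (`isAbsolutelyIrreducible_of_trace_eq`).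
-/

set_option autoImplicit false

namespace Fermat.Agent.S58

open Matrix Module TensorProduct Fermat.Agent.TraceRigidity

local notation "GQ" => (AlgebraicClosure ℚ ≃ₐ[ℚ] AlgebraicClosure ℚ)

/-- In a vector space, a subspace stable under all endomorphisms is `⊥` or `⊤`. -/
theorem eq_bot_or_top_of_forall_end {K W : Type*} [Field K] [AddCommGroup W] [Module K W]
    (U : Submodule K W) (h : ∀ f : Module.End K W, ∀ x ∈ U, f x ∈ U) : U = ⊥ ∨ U = ⊤ := by
  by_cases hU : U = ⊥
  · exact Or.inl hU
  right
  obtain ⟨u, hu, hu0⟩ := (Submodule.ne_bot_iff U).mp hU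
  obtain ⟨φ, hφ⟩ : ∃ φ : Module.Dual K W, φ u ≠ 0 := by
    by_contra hcon
    rw [not_exists] at hcon
    simp only [not_not] at hcon
    exact hu0 ((Module.forall_dual_apply_eq_zero_iff K u).mp hcon)
  rw [eq_top_iff]
  intro v _
  have := h ((φ u)⁻¹ • (φ.smulRight v)) u hu
  rw [LinearMap.smul_apply, LinearMap.smulRight_apply, smul_smul, inv_mul_cancel₀ hφ,
    one_smul] at this
  exact this

/-- A subspace stable under a spanning family of endomorphisms is `⊥` or `⊤`. -/
theorem eq_bot_or_top_of_span_eq_top {K W : Type*} [Field K] [AddCommGroup W] [Module K W]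
    {ι : Type*} (F : ι → Module.End K W) (hF : Submodule.span K (Set.range F) = ⊤)
    (U : Submodule K W) (h : ∀ i, ∀ x ∈ U, F i x ∈ U) : U = ⊥ ∨ U = ⊤ := by
  refine eq_bot_or_top_of_forall_end U fun f => ?_
  have hf : f ∈ Submodule.span K (Set.range F) := by rw [hF]; trivial
  induction hf using Submodule.span_induction with
  | mem x hx =>
    obtain ⟨i, rfl⟩ := hx
    exact h i
  | zero => intro x _; rw [LinearMap.zero_apply]; exact U.zero_mem
  | add a b _ _ ha hb =>
    intro x hx
    rw [LinearMap.add_apply]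
    exact U.add_mem (ha x hx) (hb x hx)
  | smul c a _ ha =>
    intro x hx
    rw [LinearMap.smul_apply]
    exact U.smul_mem c (ha x hx)

/-- **Converse of Burnside.** -/
theorem isAbsolutelyIrreducible_of_isUnit_det_coordMat {A : Type} [CommRing A] [IsLocalRing A]
    (ρ : GaloisRepAdic A) (b : Basis (Fin 2) A ρ.V) (g : Fin 2 × Fin 2 → GQ)
    (hg : IsUnit (coordMat (fun σ => LinearMap.toMatrix b b (ρ.ρ σ)) g).det) :
    ρ.residual.IsAbsolutelyIrreducible := by
  classical
  set k := IsLocalRing.ResidueField A with hk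
  set K := AlgebraicClosure k with hK
  intro U hU
  set bk : Basis (Fin 2) k (k ⊗[A] ρ.V) := Algebra.TensorProduct.basis k b with hbk
  set bK : Basis (Fin 2) K (K ⊗[k] (k ⊗[A] ρ.V)) := Algebra.TensorProduct.basis K bk with hbK
  set ρK : GQ → Module.End K (K ⊗[k] (k ⊗[A] ρ.V)) :=
    fun x => ((ρ.ρ x).baseChange k).baseChange K with hρK
  set rK : GQ → Matrix (Fin 2) (Fin 2) K := fun σ => LinearMap.toMatrix bK bK (ρK σ) with hrK
  have hrK_eq : ∀ σ, rK σ = ((LinearMap.toMatrix b b (ρ.ρ σ)).map (algebraMap A k)).map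
      (algebraMap k K) := by
    intro σ
    rw [← LinearMap.toMatrix_baseChange, ← LinearMap.toMatrix_baseChange]
  have h2 : coordMat rK g = ((algebraMap k K).comp (algebraMap A k)).mapMatrix
      (coordMat (fun σ => LinearMap.toMatrix b b (ρ.ρ σ)) g) := by
    ext ab j
    simp only [coordMat, Matrix.of_apply, RingHom.mapMatrix_apply, Matrix.map_apply]
    rw [hrK_eq]
    rfl
  have h3 : IsUnit (coordMat rK g).det := by
    rw [h2, ← RingHom.map_det]
    exact hg.map _
  -- the four matrices `rK (g j)` form a basis of `M₂(K)`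
  have h4 : Submodule.span K (Set.range fun j => rK (g j)) = ⊤ := by
    have := (Module.Basis.is_basis_iff_det (Matrix.stdBasis K (Fin 2) (Fin 2))
      (v := fun j => rK (g j))).mpr (by
        rw [Basis.det_apply, stdBasis_toMatrix]
        exact h3)
    exact this.2
  -- hence the four endomorphisms span `End`
  have h5 : Submodule.span K (Set.range fun j => ρK (g j)) = ⊤ := by
    have e : (Set.range fun j => rK (g j)) =
        ((LinearMap.toMatrix bK bK).toLinearMap :
          Module.End K (K ⊗[k] (k ⊗[A] ρ.V)) →ₗ[K] Matrix (Fin 2) (Fin 2) K) ''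
            (Set.range fun j => ρK (g j)) := by
      rw [← Set.range_comp]
      rfl
    rw [e, ← Submodule.map_span] at h4
    have hinj : Function.Injective ((LinearMap.toMatrix bK bK).toLinearMap :
        Module.End K (K ⊗[k] (k ⊗[A] ρ.V)) →ₗ[K] Matrix (Fin 2) (Fin 2) K) :=
      (LinearMap.toMatrix bK bK).injective
    exact Submodule.map_injective_of_injective hinj (by rw [h4, Submodule.map_top,
      LinearMap.range_eq_top.mpr (LinearMap.toMatrix bK bK).surjective])
  exact eq_bot_or_top_of_span_eq_top (fun j => ρK (g j)) h5 U fun j x hx => hU (g j) x hx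

/-- **Absolute irreducibility of the reduction only depends on the trace.** -/
theorem isAbsolutelyIrreducible_of_trace_eq {A : Type} [CommRing A] [IsLocalRing A]
    (ρ₁ ρ₂ : GaloisRepAdic A) (b₁ : Basis (Fin 2) A ρ₁.V) (g : Fin 2 × Fin 2 → GQ)
    (hg : IsUnit (coordMat (fun σ => LinearMap.toMatrix b₁ b₁ (ρ₁.ρ σ)) g).det)
    (htr : ∀ σ, LinearMap.trace A ρ₁.V (ρ₁.ρ σ) = LinearMap.trace A ρ₂.V (ρ₂.ρ σ)) :
    ρ₂.residual.IsAbsolutelyIrreducible := by
  classical
  set b₂ : Basis (Fin 2) A ρ₂.V := Module.finBasisOfFinrankEq A ρ₂.V ρ₂.finrank_eq with hb₂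
  refine isAbsolutelyIrreducible_of_isUnit_det_coordMat ρ₂ b₂ g ?_
  rw [← isUnit_det_gramMat_iff] at hg ⊢
  have hD : gramMat (fun σ => LinearMap.toMatrix b₁ b₁ (ρ₁.ρ σ)) g =
      gramMat (fun σ => LinearMap.toMatrix b₂ b₂ (ρ₂.ρ σ)) g := by
    ext j l
    simp only [gramMat, Matrix.of_apply]
    rw [← LinearMap.toMatrix_mul, ← LinearMap.toMatrix_mul, ← map_mul, ← map_mul,
      ← LinearMap.trace_eq_matrix_trace A b₁, ← LinearMap.trace_eq_matrix_trace A b₂]
    exact htr _
  rw [← hD]
  exact hg

end Fermat.Agent.S58
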