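import Mathlib
import Fermat.Prelude.Def_CuspForm_HeckeAlgebra
import Fermat.Agent.S22
import Fermat.Agent.Lib.DVRPoints.Reduced

/-!
# S58, leaf COEFF (helper38): a coefficient ring for an eigencharacter

For a ring homomorphism `chig : heckeAlgebra M 2 S →+* ℂ` and a prime `lam` there is a complete
discrete valuation ring `O'` of characteristic zero with finite residue field of characteristic
`lam` and an INJECTIVE ring homomorphism `iota : chig.range →+* O'`
(`chig.range` is an order in a number field by S22; complete the ring of integers at a prime above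
`lam`).  This is the input `(O', iota)` of the frozen statements S35 and S36.
-/

set_option autoImplicit false
set_option linter.style.haveILetI false

namespace Fermat.Agent.S58

open IsLocalRing NumberField IsDedekindDomain

universe u

section Order

variable (D : Type) [CommRing D] [IsDomain D] [Module.Finite ℤ D] [CharZero D]

/-- a natural prime is not a unit of the ring of integers of a number field -/
theorem not_isUnit_natCast_ringOfIntegers (K : Type) [Field K] [NumberField K] {p : ℕ}
    (hp : p.Prime) : ¬ IsUnit (p : 𝓞 K) := by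
  intro h
  obtain ⟨u, hu⟩ := h
  set x : 𝓞 K := ((u⁻¹ : (𝓞 K)ˣ) : 𝓞 K) with hx
  have h1 : (p : 𝓞 K) * x = 1 := by
    rw [hx, ← hu]; exact u.mul_inv
  have h2 : (p : K) * (x : K) = 1 := by
    have := congrArg (fun z : 𝓞 K => (z : K)) h1
    push_cast at this; simpa using this
  have hpne : (p : K) ≠ 0 := by exact_mod_cast hp.ne_zero
  have hxval : (x : K) = (p : K)⁻¹ := by field_simp; linear_combination h2
  have hint : IsIntegral ℤ ((p : K)⁻¹) := by rw [← hxval]; exact x.2
  have hmap : (algebraMap ℚ K) ((p : ℚ)⁻¹) = (p : K)⁻¹ := by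
    rw [map_inv₀, map_natCast]
  rw [← hmap] at hint
  have hintQ : IsIntegral ℤ ((p : ℚ)⁻¹) :=
    (isIntegral_algebraMap_iff (algebraMap ℚ K).injective).mp hint
  obtain ⟨m, hm⟩ := IsIntegrallyClosed.isIntegral_iff.mp hintQ
  rw [eq_intCast] at hm
  have hpQ : (p : ℚ) ≠ 0 := by exact_mod_cast hp.ne_zero
  have hmul : ((p * m : ℤ) : ℚ) = ((1 : ℤ) : ℚ) := by
    push_cast; rw [hm]; field_simp
  have hdvd : (p : ℤ) ∣ 1 := ⟨m, (Int.cast_injective hmul).symm⟩
  have hple : (p : ℤ) ≤ 1 := Int.le_of_dvd one_pos hdvd
  have := hp.two_le; omega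

/-- An order embeds into a complete discrete valuation ring of residue characteristic `lam`. -/
theorem exists_coeffRing_of_order (lam : ℕ) (hlam : lam.Prime) :
    ∃ (O' : Type) (_ : CommRing O') (_ : IsDomain O') (_ : IsDiscreteValuationRing O')
      (_ : IsAdicComplete (maximalIdeal O') O') (_ : Finite (ResidueField O'))
      (_ : CharZero O'), (lam : O') ∈ maximalIdeal O' ∧
      ∃ iota : D →+* O', Function.Injective iota := by
  classical
  let K : Type := FractionRing D
  haveI : NumberField K := Fermat.Agent.DVRPoints.numberField_of_isFractionRing D K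
  -- a prime of `𝓞 K` above `lam`
  have hne : Ideal.span {(lam : 𝓞 K)} ≠ ⊤ := fun htop =>
    not_isUnit_natCast_ringOfIntegers K hlam (Ideal.span_singleton_eq_top.mp htop)
  obtain ⟨𝔓, h𝔓max, h𝔓le⟩ := Ideal.exists_le_maximal _ hne
  have hlam𝔓 : (lam : 𝓞 K) ∈ 𝔓 := h𝔓le (Ideal.subset_span rfl)
  have h𝔓ne : 𝔓 ≠ ⊥ := by
    intro h
    rw [h, Ideal.mem_bot] at hlam𝔓
    exact hlam.ne_zero (by exact_mod_cast hlam𝔓)
  let v : HeightOneSpectrum (𝓞 K) := ⟨𝔓, h𝔓max.isPrime, h𝔓ne⟩
  haveI : Finite (𝓞 K ⧸ v.asIdeal) := Ideal.finiteQuotientOfFreeOfNeBot v.asIdeal v.ne_bot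
  have hmax : (lam : v.adicCompletionIntegers K) ∈ maximalIdeal (v.adicCompletionIntegers K) :=
    Fermat.Agent.DVRPoints.natCast_mem_maximalIdeal v lam hlam𝔓
  refine ⟨v.adicCompletionIntegers K, inferInstance, inferInstance, inferInstance,
    Fermat.Agent.DVRPoints.isAdicComplete_adicCompletionIntegers v,
    Fermat.Agent.DVRPoints.finite_residueField v,
    Fermat.Agent.DVRPoints.charZero_adicCompletionIntegers v, hmax,
    (algebraMap (𝓞 K) (v.adicCompletionIntegers K)).comp (Fermat.Agent.DVRPoints.toInt D K), ?_⟩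
  have hinj2 : Function.Injective (algebraMap (𝓞 K) (v.adicCompletionIntegers K)) := by
    rw [injective_iff_map_eq_zero]
    intro a ha
    have h1 := Fermat.Agent.DVRPoints.coe_algebraMap_eq (K := K) v a
    rw [ha] at h1
    have h2 : algebraMap K (v.adicCompletion K) (algebraMap (𝓞 K) K a) = 0 := by
      rw [← h1]; rfl
    have h3 : algebraMap (𝓞 K) K a = 0 :=
      (map_eq_zero_iff _ (algebraMap K (v.adicCompletion K)).injective).mp h2
    exact (map_eq_zero_iff _ (IsFractionRing.injective (𝓞 K) K)).mp h3
  exact hinj2.comp (Fermat.Agent.DVRPoints.toInt_injective D K)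

end Order

/-- **Leaf COEFF**: the coefficient ring `O'` and the injective `iota` for an eigencharacter. -/
theorem exists_coeffRing {M : ℕ} [NeZero M] (S : Set ℕ)
    (chig : CuspForm.heckeAlgebra M 2 S →+* ℂ) (lam : ℕ) [Fact lam.Prime] :
    ∃ (O' : Type) (_ : CommRing O') (_ : IsDomain O') (_ : IsDiscreteValuationRing O')
      (_ : IsAdicComplete (maximalIdeal O') O') (_ : Finite (ResidueField O'))
      (_ : CharZero O'), (lam : O') ∈ maximalIdeal O' ∧
      ∃ iota : chig.range →+* O', Function.Injective iota := by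
  haveI hfin : Module.Finite ℤ (CuspForm.heckeAlgebra M 2 S) := Fermat.Agent.S22.result M 2 S
  haveI : Module.Finite ℤ chig.range :=
    Module.Finite.of_surjective (chig.rangeRestrict.toIntAlgHom.toLinearMap)
      chig.rangeRestrict_surjective
  exact exists_coeffRing_of_order chig.range lam Fact.out

end Fermat.Agent.S58
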