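import Mathlib

/-!
# S58, leaf H1 (helper38): an involution of `ℚ̄` inverts every root of unity

`Fermat.Agent.S58.involution_apply_root` : if `c : ℚ̄ ≃ₐ[ℚ] ℚ̄`, `c * c = 1`, `c ≠ 1` and `μ ^ n = 1`
(`0 < n`) then `c μ = μ⁻¹`.

This is the easy half of the Artin--Schreier theorem: the fixed field `F` of `c` does not contain
`√-1`, sums of squares of `F` are squares of `F`, hence `1 + u + ⋯ + u^(n-1) ≠ 0` for every norm
`u = μ · c μ`.
-/

set_option autoImplicit false
set_option linter.unusedSectionVars false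

namespace Fermat.Agent.S58

section Abstract

variable {C : Type*} [Field C] [IsAlgClosed C] [CharZero C]

/-- squares of fixed elements -/
def FixSq (c : C ≃+* C) (x : C) : Prop := ∃ r : C, c r = r ∧ r ^ 2 = x

variable (c : C ≃+* C)

theorem fixSq_zero : FixSq c 0 := ⟨0, map_zero c, by ring⟩

theorem fixSq_one : FixSq c 1 := ⟨1, map_one c, by ring⟩

theorem fixSq_mul {x y : C} (hx : FixSq c x) (hy : FixSq c y) : FixSq c (x * y) := by
  obtain ⟨r, hr, rfl⟩ := hx
  obtain ⟨s, hs, rfl⟩ := hy
  exact ⟨r * s, by rw [map_mul, hr, hs], by ring⟩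

theorem fixSq_pow {x : C} (hx : FixSq c x) (k : ℕ) : FixSq c (x ^ k) := by
  induction k with
  | zero => rw [pow_zero]; exact fixSq_one c
  | succ k ih => rw [pow_succ]; exact fixSq_mul c ih hx

variable {c}

/-- `c` moves a square root of `-1`. -/
theorem involution_apply_I (hc : ∀ x, c (c x) = x) (hc1 : ∃ a, c a ≠ a) {i : C}
    (hi : i ^ 2 = -1) : c i = -i := by
  have hci : c i ^ 2 = -1 := by rw [← map_pow, hi, map_neg, map_one]
  have h2 : (c i - i) * (c i + i) = 0 := by ring_nf; rw [hci, hi]; ring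
  rcases mul_eq_zero.mp h2 with h | h
  · exfalso
    have hfix : c i = i := sub_eq_zero.mp h
    obtain ⟨a, ha⟩ := hc1
    set d : C := a - c a with hd
    have hd0 : d ≠ 0 := fun h0 => ha (sub_eq_zero.mp h0).symm
    have hcd : c d = -d := by rw [hd, map_sub, hc]; ring
    obtain ⟨e, he⟩ := IsAlgClosed.exists_pow_nat_eq d (n := 2) (by norm_num)
    set ν : C := e * c e with hν
    have hcν : c ν = ν := by rw [hν, map_mul, hc]; ring
    have hν2 : ν ^ 2 = -d ^ 2 := by
      have : ν ^ 2 = e ^ 2 * c (e ^ 2) := by rw [hν, map_pow]; ring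
      rw [this, he, hcd]; ring
    have h3 : (ν - i * d) * (ν + i * d) = 0 := by
      have : (ν - i * d) * (ν + i * d) = ν ^ 2 - i ^ 2 * d ^ 2 := by ring
      rw [this, hν2, hi]; ring
    have hi0 : i ≠ 0 := by
      rintro rfl
      norm_num at hi
    rcases mul_eq_zero.mp h3 with h4 | h4
    · have h5 : ν = i * d := sub_eq_zero.mp h4
      have h6 := congrArg c h5
      rw [hcν, map_mul, hfix, hcd, h5] at h6
      have h7 : i * d = 0 := by
        have : (2 : C) * (i * d) = 0 := by linear_combination h6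
        rcases mul_eq_zero.mp this with h8 | h8
        · norm_num at h8
        · exact h8
      rcases mul_eq_zero.mp h7 with h8 | h8
      · exact hi0 h8
      · exact hd0 h8
    · have h5 : ν = -(i * d) := eq_neg_of_add_eq_zero_left h4
      have h6 := congrArg c h5
      rw [hcν, map_neg, map_mul, hfix, hcd, h5] at h6
      have h7 : i * d = 0 := by
        have : (2 : C) * (i * d) = 0 := by linear_combination -h6
        rcases mul_eq_zero.mp this with h8 | h8
        · norm_num at h8
        · exact h8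
      rcases mul_eq_zero.mp h7 with h8 | h8
      · exact hi0 h8
      · exact hd0 h8
  · exact eq_neg_of_add_eq_zero_left h

/-- `-1` is not a square of a fixed element. -/
theorem not_fixSq_neg_one (hc : ∀ x, c (c x) = x) (hc1 : ∃ a, c a ≠ a) : ¬ FixSq c (-1) := by
  rintro ⟨r, hr, hr2⟩
  have h := involution_apply_I hc hc1 hr2
  rw [hr] at h
  have h2 : (2 : C) * r = 0 := by linear_combination h
  rcases mul_eq_zero.mp h2 with h3 | h3
  · norm_num at h3
  · rw [h3] at hr2
    norm_num at hr2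

/-- the norm of any element is a square of a fixed element -/
theorem fixSq_norm (hc : ∀ x, c (c x) = x) (x : C) : FixSq c (x * c x) := by
  obtain ⟨w, hw⟩ := IsAlgClosed.exists_pow_nat_eq x (n := 2) (by norm_num)
  refine ⟨w * c w, by rw [map_mul, hc]; ring, ?_⟩
  rw [← hw, map_pow]; ring

/-- a sum of two squares of fixed elements is a square of a fixed element -/
theorem fixSq_add (hc : ∀ x, c (c x) = x) (hc1 : ∃ a, c a ≠ a) {x y : C} (hx : FixSq c x)
    (hy : FixSq c y) : FixSq c (x + y) := by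
  obtain ⟨r, hr, rfl⟩ := hx
  obtain ⟨s, hs, rfl⟩ := hy
  obtain ⟨i, hi⟩ := IsAlgClosed.exists_pow_nat_eq (-1 : C) (n := 2) (by norm_num)
  have hci := involution_apply_I hc hc1 hi
  have h := fixSq_norm hc (r + s * i)
  have h2 : (r + s * i) * c (r + s * i) = r ^ 2 + s ^ 2 := by
    rw [map_add, map_mul, hr, hs, hci]
    have : (r + s * i) * (r + s * -i) = r ^ 2 - s ^ 2 * i ^ 2 := by ring
    rw [this, hi]; ring
  rwa [h2] at h

theorem fixSq_sum (hc : ∀ x, c (c x) = x) (hc1 : ∃ a, c a ≠ a) {ι : Type*} (s : Finset ι)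
    (f : ι → C) (hf : ∀ j ∈ s, FixSq c (f j)) : FixSq c (∑ j ∈ s, f j) := by
  classical
  induction s using Finset.induction_on with
  | empty => rw [Finset.sum_empty]; exact fixSq_zero c
  | insert a s ha ih =>
    rw [Finset.sum_insert ha]
    exact fixSq_add hc hc1 (hf a (Finset.mem_insert_self a s))
      (ih fun j hj => hf j (Finset.mem_insert_of_mem hj))

/-- **An involution of an algebraically closed field of characteristic zero inverts the roots of
unity.** -/
theorem involution_apply_root_abstract (hc : ∀ x, c (c x) = x) (hc1 : ∃ a, c a ≠ a) {n : ℕ}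
    (hn : 0 < n) {μ : C} (hμ : μ ^ n = 1) : c μ = μ⁻¹ := by
  have hμ0 : μ ≠ 0 := by
    rintro rfl
    rw [zero_pow hn.ne'] at hμ
    exact zero_ne_one hμ
  set u : C := μ * c μ with hu
  have hun : u ^ n = 1 := by rw [hu, mul_pow, ← map_pow, hμ, map_one, mul_one]
  have huS : FixSq c u := fixSq_norm hc μ
  have hu1 : u = 1 := by
    by_contra hne
    obtain ⟨m, rfl⟩ : ∃ m, n = m + 1 := ⟨n - 1, by omega⟩
    have hgeom : (u - 1) * (∑ k ∈ Finset.range (m + 1), u ^ k) = 0 := by
      rw [mul_comm, geom_sum_mul, hun, sub_self]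
    have hsum : ∑ k ∈ Finset.range (m + 1), u ^ k = 0 := by
      rcases mul_eq_zero.mp hgeom with h | h
      · exact absurd (sub_eq_zero.mp h) hne
      · exact h
    rw [Finset.sum_range_succ'] at hsum
    have hT : FixSq c (∑ k ∈ Finset.range m, u ^ (k + 1)) :=
      fixSq_sum hc hc1 _ _ fun j _ => fixSq_pow c huS (j + 1)
    have hT' : ∑ k ∈ Finset.range m, u ^ (k + 1) = -1 := by
      rw [pow_zero] at hsum
      linear_combination hsum
    rw [hT'] at hT
    exact not_fixSq_neg_one hc hc1 hT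
  exact eq_inv_of_mul_eq_one_right hu1

end Abstract

/-- **An involution `c ≠ 1` of `ℚ̄` inverts every root of unity.** -/
theorem involution_apply_root
    (c : AlgebraicClosure ℚ ≃ₐ[ℚ] AlgebraicClosure ℚ) (hc : c * c = 1) (hc1 : c ≠ 1) {n : ℕ}
    (hn : 0 < n) {μ : AlgebraicClosure ℚ} (hμ : μ ^ n = 1) : c μ = μ⁻¹ := by
  have h1 : ∀ x, (c : AlgebraicClosure ℚ ≃+* AlgebraicClosure ℚ)
      ((c : AlgebraicClosure ℚ ≃+* AlgebraicClosure ℚ) x) = x := by
    intro x
    have := congrArg (fun f : AlgebraicClosure ℚ ≃ₐ[ℚ] AlgebraicClosure ℚ => f x) hc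
    simpa using this
  have h2 : ∃ a, (c : AlgebraicClosure ℚ ≃+* AlgebraicClosure ℚ) a ≠ a := by
    by_contra hno
    have hall : ∀ a, (c : AlgebraicClosure ℚ ≃+* AlgebraicClosure ℚ) a = a := fun a =>
      not_not.mp fun h => hno ⟨a, h⟩
    exact hc1 (AlgEquiv.ext fun x => by simpa using hall x)
  exact involution_apply_root_abstract (c := (c : AlgebraicClosure ℚ ≃+* AlgebraicClosure ℚ))
    h1 h2 hn hμ

/-- **Leaf H1 in the form consumed by `S58/Reduction.lean`.** -/
theorem invol_root_pow (c : AlgebraicClosure ℚ ≃ₐ[ℚ] AlgebraicClosure ℚ) (hc : c * c = 1)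
    (hc1 : c ≠ 1) {p : ℕ} (hp : p.Prime) (_hp2 : p ≠ 2) (μ : AlgebraicClosure ℚ)
    (hμ : μ ^ p = 1) : c μ = μ ^ (p - 1) := by
  rw [involution_apply_root c hc hc1 hp.pos hμ]
  have hμ0 : μ ≠ 0 := by
    rintro rfl
    rw [zero_pow hp.pos.ne'] at hμ
    exact zero_ne_one hμ
  apply inv_eq_of_mul_eq_one_left
  rw [← pow_succ, Nat.sub_add_cancel hp.pos, hμ]

end Fermat.Agent.S58
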