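import Mathlib
import Fermat.Agent.Lib.TateModule.ModelResidual
import Fermat.Agent.Lib.MultRed.Tate
import Fermat.Agent.Lib.Cyclo.PadicToComplete
import Fermat.Agent.S35.SMO.Core
import Fermat.Agent.S58.Invol
import Fermat.Agent.S58.Burnside

/-!
# S58: the Tate module of `W`, base-changed to a complete local ring

For a complete local ring `O` with `lam ∈ 𝔪_O` we base-change the `lam`-adic Tate module of the
integral Weierstrass model `W` along `ℤ_[lam] → O` and record its Frobenius characteristic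
polynomials, unipotence on inertia (semistable case), the determinant at involutions, and a basis
of `M₂(O)` inside its image (residually absolutely irreducible case).
-/

set_option autoImplicit false
set_option linter.style.haveILetI false
set_option linter.unusedSectionVars false

noncomputable section

namespace Fermat.Agent.S58

open Polynomial IsLocalRing Module TensorProduct Fermat.Agent.TateModule
  Fermat.Agent.TraceRigidity

local notation "GQ" => (AlgebraicClosure ℚ ≃ₐ[ℚ] AlgebraicClosure ℚ)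
local notation "Qbar" => AlgebraicClosure ℚ

variable {O : Type} [CommRing O] [IsLocalRing O] [IsAdicComplete (maximalIdeal O) O]
variable (lam : ℕ) [hlamP : Fact lam.Prime]

/-- The canonical homomorphism `ℤ_[lam] → O`. -/
def tateTo (hlam : (lam : O) ∈ maximalIdeal O) : ℤ_[lam] →+* O :=
  Fermat.Agent.Cyclo.padicToComplete lam (maximalIdeal O) hlam

theorem tateTo_mem_maximalIdeal (hlam : (lam : O) ∈ maximalIdeal O) {x : ℤ_[lam]}
    (hx : x ∈ Ideal.span {(lam : ℤ_[lam])}) : tateTo lam hlam x ∈ maximalIdeal O := by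
  have h1 : x ∈ Ideal.span {(lam : ℤ_[lam]) ^ 1} := by rwa [pow_one]
  have := Fermat.Agent.Cyclo.padicToComplete_mem lam (maximalIdeal O) hlam 1 h1
  rwa [pow_one] at this

theorem tateTo_isLocalHom (hlam : (lam : O) ∈ maximalIdeal O) : IsLocalHom (tateTo lam hlam) := by
  constructor
  intro a ha
  by_contra hna
  have h1 : a ∈ maximalIdeal ℤ_[lam] := (mem_maximalIdeal a).mpr (mem_nonunits_iff.mpr hna)
  rw [PadicInt.maximalIdeal_eq_span_p] at h1
  have h2 := tateTo_mem_maximalIdeal lam hlam h1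
  exact (mem_nonunits_iff.mp ((mem_maximalIdeal _).mp h2)) ha

variable (W : WeierstrassCurve ℤ)

/-- The `lam`-adic Tate module of `W`, with coefficients extended to `O`. -/
def tateBC (hΔ : W.Δ ≠ 0) (hlam : (lam : O) ∈ maximalIdeal O) : GaloisRepAdic O :=
  (tateRepOfModel W lam hΔ).baseChangeAlong (tateTo lam hlam) (tateTo_isLocalHom lam hlam)

variable {lam W}

theorem tateBC_charpoly (hΔ : W.Δ ≠ 0) (hlam : (lam : O) ∈ maximalIdeal O) (σ : GQ) :
    LinearMap.charpoly ((tateBC lam W hΔ hlam).ρ σ) =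
      (LinearMap.charpoly ((tateRepOfModel W lam hΔ).ρ σ)).map (tateTo lam hlam) :=
  Fermat.Agent.S35SMO.charpoly_baseChangeAlong _ _ _ σ

theorem tateBC_det (hΔ : W.Δ ≠ 0) (hlam : (lam : O) ∈ maximalIdeal O) (σ : GQ) :
    LinearMap.det ((tateBC lam W hΔ hlam).ρ σ) =
      tateTo lam hlam (LinearMap.det ((tateRepOfModel W lam hΔ).ρ σ)) := by
  letI : Algebra ℤ_[lam] O := (tateTo lam hlam).toAlgebra
  exact LinearMap.det_baseChange ((tateRepOfModel W lam hΔ).ρ σ)

/-- **Frobenius characteristic polynomial** at every good prime `ℓ ≠ lam`. -/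
theorem tateBC_charpoly_frobenius (hΔ : W.Δ ≠ 0) (hlam : (lam : O) ∈ maximalIdeal O)
    {ℓ : ℕ} (hℓ : ℓ.Prime) (hℓlam : ℓ ≠ lam) (hgood : W.IsGoodPrimeFor ℓ)
    (A : ValuationSubring Qbar) (hA : A.LiesOverPrime ℓ) (τ : GQ) (hτ : A.IsFrobeniusAt τ ℓ) :
    LinearMap.charpoly ((tateBC lam W hΔ hlam).ρ τ) =
      X ^ 2 - C (((W.apOfModel ℓ : ℤ) : O)) * X + C ((ℓ : O)) := by
  haveI : Fact ℓ.Prime := ⟨hℓ⟩
  rw [tateBC_charpoly, tateRepOfModel_charpoly_frobenius hΔ hℓlam hgood A hA τ hτ]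
  simp only [Polynomial.map_add, Polynomial.map_sub, Polynomial.map_mul, Polynomial.map_pow,
    Polynomial.map_X, map_intCast, map_natCast, Polynomial.map_intCast,
    Polynomial.map_natCast]

/-- The Tate module of a semistable model is unipotent on inertia at every prime `q ≠ lam`
(`lam` odd). -/
theorem tateRepOfModel_isUnipotentOnInertiaAt (hΔ : W.Δ ≠ 0) (hss : W.IsSemistableModel)
    (hlam2 : lam ≠ 2) {q : ℕ} (hq : q.Prime) (hqlam : q ≠ lam) :
    (tateRepOfModel W lam hΔ).IsUnipotentOnInertiaAt q := by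
  by_cases hbad : (q : ℤ) ∣ W.Δ
  · exact Fermat.Agent.MultRed.tateRep_isUnipotentOnInertiaAt_of_semistable W hss hlam2
      (map_Δ_ne_zero_of_model hΔ) hq hqlam hbad
  · intro P hP σ hσ
    have h1 := tateRepOfModel_isUnramifiedAt (p := lam) hΔ hq hqlam hbad P hP σ hσ
    rw [h1]
    refine charpoly_of_sub_one_sq (tateRepOfModel W lam hΔ).finrank_eq _ ?_
    rw [sub_self, zero_pow two_ne_zero]

theorem tateBC_isUnipotentOnInertiaAt (hΔ : W.Δ ≠ 0) (hlam : (lam : O) ∈ maximalIdeal O)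
    (hss : W.IsSemistableModel) (hlam2 : lam ≠ 2) {q : ℕ} (hq : q.Prime) (hqlam : q ≠ lam) :
    (tateBC lam W hΔ hlam).IsUnipotentOnInertiaAt q := by
  intro P hP σ hσ
  rw [tateBC_charpoly, tateRepOfModel_isUnipotentOnInertiaAt hΔ hss hlam2 hq hqlam P hP σ hσ]
  simp only [Polynomial.map_pow, Polynomial.map_sub, Polynomial.map_X, Polynomial.map_one]

/-- The determinant of the Tate module at an involution `c ≠ 1` is `-1` modulo `lam`
(`lam` odd). -/
theorem tateBC_det_involution (hΔ : W.Δ ≠ 0) (hlam : (lam : O) ∈ maximalIdeal O)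
    (hlam2 : lam ≠ 2) (c : GQ) (hc : c * c = 1) (hc1 : c ≠ 1) :
    LinearMap.det ((tateBC lam W hΔ hlam).ρ c) + 1 ∈ maximalIdeal O := by
  have hdet := (tateRepOfModel_detIsCyclotomic (p := lam) (W := W) hΔ).2 1 c (lam - 1)
    (fun μ hμ => by
      rw [pow_one] at hμ
      exact invol_root_pow c hc hc1 hlamP.out hlam2 μ hμ)
  rw [pow_one] at hdet
  have h1 := tateTo_mem_maximalIdeal lam hlam hdet
  rw [map_sub, map_natCast, ← tateBC_det] at h1
  have h2 : ((lam - 1 : ℕ) : O) + 1 = (lam : O) := by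
    rw [← Nat.cast_succ, Nat.succ_eq_add_one, Nat.sub_add_cancel hlamP.out.pos]
  have h3 : LinearMap.det ((tateBC lam W hΔ hlam).ρ c) + 1 =
      (LinearMap.det ((tateBC lam W hΔ hlam).ρ c) - ((lam - 1 : ℕ) : O)) + (lam : O) := by
    rw [← h2]; ring
  rw [h3]
  exact Ideal.add_mem _ h1 hlam

/-- If `W[lam]` is irreducible (`lam` odd), four matrices of the base-changed Tate module form
a basis of `M₂(O)`. -/
theorem tateBC_exists_coordMat (hΔ : W.Δ ≠ 0) (hlam : (lam : O) ∈ maximalIdeal O)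
    (hlam2 : lam ≠ 2)
    (hirr : WeierstrassCurve.Affine.Point.GaloisRepIsIrreducible (K := Qbar) ℚ
      (W.map (Int.castRingHom ℚ)) lam) :
    ∃ (b : Basis (Fin 2) O (tateBC lam W hΔ hlam).V) (g : Fin 2 × Fin 2 → GQ),
      IsUnit (coordMat (fun σ => LinearMap.toMatrix b b ((tateBC lam W hΔ hlam).ρ σ)) g).det := by
  classical
  letI : Algebra ℤ_[lam] O := (tateTo lam hlam).toAlgebra
  set ρ₀ := tateRepOfModel W lam hΔ with hρ₀
  set b₀ : Basis (Fin 2) ℤ_[lam] ρ₀.V := Module.finBasisOfFinrankEq ℤ_[lam] ρ₀.V ρ₀.finrank_eq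
    with hb₀
  obtain ⟨g, hg⟩ := exists_isUnit_det_coordMat ρ₀
    (tateRepOfModel_residual_isAbsolutelyIrreducible hΔ hlam2 hirr) b₀
  refine ⟨Algebra.TensorProduct.basis O b₀, g, ?_⟩
  have h2 : coordMat (fun σ => LinearMap.toMatrix (Algebra.TensorProduct.basis O b₀)
      (Algebra.TensorProduct.basis O b₀) ((tateBC lam W hΔ hlam).ρ σ)) g =
      (tateTo lam hlam).mapMatrix (coordMat (fun σ => LinearMap.toMatrix b₀ b₀ (ρ₀.ρ σ)) g) := by
    ext ab j
    simp only [coordMat, Matrix.of_apply, RingHom.mapMatrix_apply, Matrix.map_apply]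
    have : LinearMap.toMatrix (Algebra.TensorProduct.basis O b₀)
        (Algebra.TensorProduct.basis O b₀) ((tateBC lam W hΔ hlam).ρ (g j)) =
        (LinearMap.toMatrix b₀ b₀ (ρ₀.ρ (g j))).map (algebraMap ℤ_[lam] O) :=
      LinearMap.toMatrix_baseChange O (ρ₀.ρ (g j)) b₀ b₀
    rw [this]
    rfl
  have h3 : (coordMat (fun σ => LinearMap.toMatrix (Algebra.TensorProduct.basis O b₀)
      (Algebra.TensorProduct.basis O b₀) ((tateBC lam W hΔ hlam).ρ σ)) g).det =
      tateTo lam hlam (coordMat (fun σ => LinearMap.toMatrix b₀ b₀ (ρ₀.ρ σ)) g).det := by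
    rw [h2, ← RingHom.map_det]
  have h4 := hg.map (tateTo lam hlam)
  rw [← h3] at h4
  exact h4

end Fermat.Agent.S58
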