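import Mathlib
import Fermat.Agent.S58.TateBC
import Fermat.Agent.Lib.TraceRigidity.Density
import Fermat.Agent.F3.FrobDensityLiteFinal
import Fermat.Prelude.Def_CuspForm_HeckeAlgebra

/-!
# S58: comparison of an attached representation with the Tate module of `W`

Let `ρ` be a representation over a complete discrete valuation ring `O''` (`lam ∈ 𝔪`, char 0)
whose Frobenius characteristic polynomials outside a finite set of primes are
`X² - a_ℓ(W) X + ℓ`.  Then `ρ` and the base-changed `lam`-adic Tate module of `W` have the same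
trace, determinant and characteristic polynomial at every element of `G_ℚ`
(Frobenius density + continuity, `TraceRigidity.trace_eq_of_charpoly_frob_eq`).
Consequences: unipotence on inertia, oddness and absolute irreducibility of the reduction.
-/

set_option autoImplicit false
set_option linter.style.haveILetI false
set_option linter.unusedSectionVars false

noncomputable section

namespace Fermat.Agent.S58

open Polynomial IsLocalRing Module Fermat.Agent.TateModule Fermat.Agent.TraceRigidity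

local notation "GQ" => (AlgebraicClosure ℚ ≃ₐ[ℚ] AlgebraicClosure ℚ)
local notation "Qbar" => AlgebraicClosure ℚ

/-! ### rank two linear algebra -/

/-- `2 det f = (tr f)² - tr (f²)` in rank two. -/
theorem two_mul_det_eq {A : Type*} [CommRing A] [Nontrivial A] {V : Type*} [AddCommGroup V]
    [Module A V] [Module.Free A V] [Module.Finite A V] (hV : Module.finrank A V = 2)
    (f : Module.End A V) :
    2 * LinearMap.det f = (LinearMap.trace A V f) ^ 2 - LinearMap.trace A V (f * f) := by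
  classical
  set b : Basis (Fin 2) A V := Module.finBasisOfFinrankEq A V hV with hb
  rw [← LinearMap.det_toMatrix b, LinearMap.trace_eq_matrix_trace A b,
    LinearMap.trace_eq_matrix_trace A b, LinearMap.toMatrix_mul]
  set M := LinearMap.toMatrix b b f with hM
  rw [Matrix.det_fin_two, Matrix.trace_fin_two, Matrix.trace_fin_two]
  simp only [Matrix.mul_apply, Fin.sum_univ_two]
  ring

/-- Equal traces give equal determinants (rank two, `2` not a zero divisor). -/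
theorem det_eq_of_forall_trace_eq {A : Type} [CommRing A] [IsDomain A] [IsLocalRing A]
    (h2 : (2 : A) ≠ 0) (ρ₁ ρ₂ : GaloisRepAdic A)
    (htr : ∀ σ, LinearMap.trace A ρ₁.V (ρ₁.ρ σ) = LinearMap.trace A ρ₂.V (ρ₂.ρ σ)) (σ : GQ) :
    LinearMap.det (ρ₁.ρ σ) = LinearMap.det (ρ₂.ρ σ) := by
  have e1 := two_mul_det_eq ρ₁.finrank_eq (ρ₁.ρ σ)
  have e2 := two_mul_det_eq ρ₂.finrank_eq (ρ₂.ρ σ)
  rw [← map_mul, htr, htr] at e1
  rw [← map_mul] at e2
  exact mul_left_cancel₀ h2 (e1.trans e2.symm)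

/-- Equal traces give equal characteristic polynomials. -/
theorem charpoly_eq_of_forall_trace_eq {A : Type} [CommRing A] [IsDomain A] [IsLocalRing A]
    (h2 : (2 : A) ≠ 0) (ρ₁ ρ₂ : GaloisRepAdic A)
    (htr : ∀ σ, LinearMap.trace A ρ₁.V (ρ₁.ρ σ) = LinearMap.trace A ρ₂.V (ρ₂.ρ σ)) (σ : GQ) :
    LinearMap.charpoly (ρ₁.ρ σ) = LinearMap.charpoly (ρ₂.ρ σ) := by
  rw [charpoly_of_finrank_two ρ₁.finrank_eq, charpoly_of_finrank_two ρ₂.finrank_eq, htr σ,
    det_eq_of_forall_trace_eq h2 ρ₁ ρ₂ htr σ]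

/-! ### the comparison -/

section Compare

variable {O : Type} [CommRing O] [IsDomain O] [IsDiscreteValuationRing O]
  [IsAdicComplete (maximalIdeal O) O] [CharZero O]
variable {W : WeierstrassCurve ℤ} {lam : ℕ} [hlamP : Fact lam.Prime]

/-- **Comparison, trace form.** -/
theorem trace_eq_tateBC (hΔ : W.Δ ≠ 0) (hlam : (lam : O) ∈ maximalIdeal O)
    (ρ : GaloisRepAdic O) (T : Finset ℕ)
    (hρ : ∀ ℓ : ℕ, ℓ.Prime → ℓ ∉ T → W.IsGoodPrimeFor ℓ ∧ ℓ ≠ lam ∧
      ∀ A : ValuationSubring Qbar, A.LiesOverPrime ℓ → ∀ σ : GQ, A.IsFrobeniusAt σ ℓ →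
        LinearMap.charpoly (ρ.ρ σ) = X ^ 2 - C (((W.apOfModel ℓ : ℤ) : O)) * X + C ((ℓ : O)))
    (σ : GQ) :
    LinearMap.trace O (tateBC lam W hΔ hlam).V ((tateBC lam W hΔ hlam).ρ σ) =
      LinearMap.trace O ρ.V (ρ.ρ σ) := by
  refine trace_eq_of_charpoly_frob_eq Fermat.Agent.F3.frobDensityLite (tateBC lam W hΔ hlam) ρ T
    ?_ σ
  intro ℓ hℓ hℓT A hA τ hτ
  obtain ⟨hg, hne, h⟩ := hρ ℓ hℓ hℓT
  rw [h A hA τ hτ, tateBC_charpoly_frobenius hΔ hlam hℓ hne hg A hA τ hτ]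

/-- **Comparison, characteristic polynomials.** -/
theorem charpoly_eq_tateBC (hΔ : W.Δ ≠ 0) (hlam : (lam : O) ∈ maximalIdeal O)
    (ρ : GaloisRepAdic O) (T : Finset ℕ)
    (hρ : ∀ ℓ : ℕ, ℓ.Prime → ℓ ∉ T → W.IsGoodPrimeFor ℓ ∧ ℓ ≠ lam ∧
      ∀ A : ValuationSubring Qbar, A.LiesOverPrime ℓ → ∀ σ : GQ, A.IsFrobeniusAt σ ℓ →
        LinearMap.charpoly (ρ.ρ σ) = X ^ 2 - C (((W.apOfModel ℓ : ℤ) : O)) * X + C ((ℓ : O)))
    (σ : GQ) :
    LinearMap.charpoly (ρ.ρ σ) = LinearMap.charpoly ((tateBC lam W hΔ hlam).ρ σ) :=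
  (charpoly_eq_of_forall_trace_eq two_ne_zero _ _ (trace_eq_tateBC hΔ hlam ρ T hρ) σ).symm

/-- Unipotence on inertia (semistable `W`, `lam` odd, `q ≠ lam`). -/
theorem isUnipotentOnInertiaAt_of_compare (hΔ : W.Δ ≠ 0) (hlam : (lam : O) ∈ maximalIdeal O)
    (ρ : GaloisRepAdic O) (T : Finset ℕ)
    (hρ : ∀ ℓ : ℕ, ℓ.Prime → ℓ ∉ T → W.IsGoodPrimeFor ℓ ∧ ℓ ≠ lam ∧
      ∀ A : ValuationSubring Qbar, A.LiesOverPrime ℓ → ∀ σ : GQ, A.IsFrobeniusAt σ ℓ →
        LinearMap.charpoly (ρ.ρ σ) = X ^ 2 - C (((W.apOfModel ℓ : ℤ) : O)) * X + C ((ℓ : O)))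
    (hss : W.IsSemistableModel) (hlam2 : lam ≠ 2) {q : ℕ} (hq : q.Prime) (hqlam : q ≠ lam) :
    ρ.IsUnipotentOnInertiaAt q := by
  intro P hP σ hσ
  rw [charpoly_eq_tateBC hΔ hlam ρ T hρ σ]
  exact tateBC_isUnipotentOnInertiaAt hΔ hlam hss hlam2 hq hqlam P hP σ hσ

/-- Frobenius characteristic polynomial at EVERY good prime `q ≠ lam`. -/
theorem charpoly_frobenius_of_compare (hΔ : W.Δ ≠ 0) (hlam : (lam : O) ∈ maximalIdeal O)
    (ρ : GaloisRepAdic O) (T : Finset ℕ)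
    (hρ : ∀ ℓ : ℕ, ℓ.Prime → ℓ ∉ T → W.IsGoodPrimeFor ℓ ∧ ℓ ≠ lam ∧
      ∀ A : ValuationSubring Qbar, A.LiesOverPrime ℓ → ∀ σ : GQ, A.IsFrobeniusAt σ ℓ →
        LinearMap.charpoly (ρ.ρ σ) = X ^ 2 - C (((W.apOfModel ℓ : ℤ) : O)) * X + C ((ℓ : O)))
    {q : ℕ} (hq : q.Prime) (hqlam : q ≠ lam) (hgood : W.IsGoodPrimeFor q)
    (A : ValuationSubring Qbar) (hA : A.LiesOverPrime q) (σ : GQ) (hσ : A.IsFrobeniusAt σ q) :
    LinearMap.charpoly (ρ.ρ σ) = X ^ 2 - C (((W.apOfModel q : ℤ) : O)) * X + C ((q : O)) := by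
  rw [charpoly_eq_tateBC hΔ hlam ρ T hρ σ]
  exact tateBC_charpoly_frobenius hΔ hlam hq hqlam hgood A hA σ hσ

/-- Oddness of the reduction (`lam` odd). -/
theorem residual_isOdd_of_compare (hΔ : W.Δ ≠ 0) (hlam : (lam : O) ∈ maximalIdeal O)
    (ρ : GaloisRepAdic O) (T : Finset ℕ)
    (hρ : ∀ ℓ : ℕ, ℓ.Prime → ℓ ∉ T → W.IsGoodPrimeFor ℓ ∧ ℓ ≠ lam ∧
      ∀ A : ValuationSubring Qbar, A.LiesOverPrime ℓ → ∀ σ : GQ, A.IsFrobeniusAt σ ℓ →
        LinearMap.charpoly (ρ.ρ σ) = X ^ 2 - C (((W.apOfModel ℓ : ℤ) : O)) * X + C ((ℓ : O)))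
    (hlam2 : lam ≠ 2) : ρ.residual.IsOdd := by
  intro c hc hc1
  rw [residual_det, ← det_eq_of_forall_trace_eq two_ne_zero _ _
    (trace_eq_tateBC hΔ hlam ρ T hρ) c]
  have h := tateBC_det_involution (W := W) hΔ hlam hlam2 c hc hc1
  have h2 := (residue_eq_zero_iff _).mpr h
  rw [map_add, map_one] at h2
  exact eq_neg_of_add_eq_zero_left h2

/-- Absolute irreducibility of the reduction (`W[lam]` irreducible, `lam` odd). -/
theorem residual_isAbsolutelyIrreducible_of_compare (hΔ : W.Δ ≠ 0)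
    (hlam : (lam : O) ∈ maximalIdeal O) (ρ : GaloisRepAdic O) (T : Finset ℕ)
    (hρ : ∀ ℓ : ℕ, ℓ.Prime → ℓ ∉ T → W.IsGoodPrimeFor ℓ ∧ ℓ ≠ lam ∧
      ∀ A : ValuationSubring Qbar, A.LiesOverPrime ℓ → ∀ σ : GQ, A.IsFrobeniusAt σ ℓ →
        LinearMap.charpoly (ρ.ρ σ) = X ^ 2 - C (((W.apOfModel ℓ : ℤ) : O)) * X + C ((ℓ : O)))
    (hlam2 : lam ≠ 2)
    (hirr : WeierstrassCurve.Affine.Point.GaloisRepIsIrreducible (K := Qbar) ℚ
      (W.map (Int.castRingHom ℚ)) lam) :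
    ρ.residual.IsAbsolutelyIrreducible := by
  obtain ⟨b, g, hg⟩ := tateBC_exists_coordMat (O := O) hΔ hlam hlam2 hirr
  exact isAbsolutelyIrreducible_of_trace_eq (tateBC lam W hΔ hlam) ρ b g hg
    (trace_eq_tateBC hΔ hlam ρ T hρ)

end Compare

/-! ### the coefficient of an attached representation -/

/-- If `χ t = a ∈ ℤ`, the image of `t` in any ring under `ι ∘ χ` is `a`. -/
theorem attached_coeff_eq {M : ℕ} [NeZero M] {S : Set ℕ}
    (chig : CuspForm.heckeAlgebra M 2 S →+* ℂ) {O' O'' : Type} [CommRing O'] [CommRing O'']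
    [Algebra O' O''] (iota : chig.range →+* O') (t : CuspForm.heckeAlgebra M 2 S) (a : ℤ)
    (h : chig t = (a : ℂ)) :
    algebraMap O' O'' ((iota.comp chig.rangeRestrict) t) = (a : O'') := by
  have h1 : chig.rangeRestrict t = ((a : ℤ) : chig.range) := by
    apply Subtype.ext
    rw [RingHom.coe_rangeRestrict, h]
    simp
  rw [RingHom.comp_apply, h1, map_intCast, map_intCast]

end Fermat.Agent.S58
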