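import Fermat.Prelude.Def_CuspForm_Newforms

/-!
# S58, step 1: descent to a newform

A normalised eigenform `g₀` of level `N ≠ 0` has a companion newform (Prelude sense) `h` of some
level `M ∣ N` with `a_ℓ(h) = a_ℓ(g₀)` for all primes `ℓ ∤ N`.
-/

set_option autoImplicit false

namespace Fermat.Agent.S58

open CuspForm ModularFormClass

/-- **Descent to a newform.** -/
theorem exists_newform_dvd {N : ℕ} (hN : N ≠ 0)
    (g₀ : CuspForm (CongruenceSubgroup.Gamma0 N) 2) (hg₀ : g₀.IsNormalizedEigenform) :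
    ∃ M : ℕ, M ∣ N ∧ ∃ h : CuspForm (CongruenceSubgroup.Gamma0 M) 2, h.IsNewform ∧
      ∀ ℓ : ℕ, ℓ.Prime → ¬ ℓ ∣ N → qCoeff h ℓ = qCoeff g₀ ℓ := by
  classical
  let P : ℕ → Prop := fun M => M ∣ N ∧ ∃ h : CuspForm (CongruenceSubgroup.Gamma0 M) 2,
    h.IsNormalizedEigenform ∧ ∀ ℓ : ℕ, ℓ.Prime → ¬ ℓ ∣ N → qCoeff h ℓ = qCoeff g₀ ℓ
  have hex : ∃ M, P M := ⟨N, dvd_rfl, g₀, hg₀, fun _ _ _ => rfl⟩
  obtain ⟨hMN, h, hh, hag⟩ := Nat.find_spec hex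
  refine ⟨Nat.find hex, hMN, h, ⟨hh, ?_⟩, hag⟩
  rintro M' hM' hne ⟨g', hg', hag'⟩
  have hM0 : Nat.find hex ≠ 0 := fun h0 => hN (Nat.eq_zero_of_zero_dvd (h0 ▸ hMN))
  have hlt : M' < Nat.find hex :=
    lt_of_le_of_ne (Nat.le_of_dvd (Nat.pos_of_ne_zero hM0) hM') hne
  refine Nat.find_min hex hlt ⟨hM'.trans hMN, g', hg', fun ℓ hℓ hℓN => ?_⟩
  rw [hag' ℓ hℓ (fun hd => hℓN (hd.trans hMN)), hag ℓ hℓ hℓN]

end Fermat.Agent.S58
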