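import Mathlib
import Fermat.Agent.S59.Endgame.PStab

/-!
# S58, leaf H3 (helper38): stabilisation of a normalised eigenform up to a squarefree level

`exists_stab_of_dvd`: a normalised eigenform of level `M` gives a normalised eigenform of every
squarefree level `R` with `M ∣ R`, with the same `a_ℓ` for all primes `ℓ ∤ R`
(iterate `Fermat.Agent.S59.exists_pStabilisation` over the primes of `R / M`).
-/

set_option autoImplicit false
set_option linter.style.haveILetI false

namespace Fermat.Agent.S58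

open CuspForm

theorem exists_stab_of_eq_mul (d : ℕ) : ∀ (M R : ℕ) [NeZero M], Squarefree R → R = M * d →
    ∀ (f : CuspForm (CongruenceSubgroup.Gamma0 M) 2), f.IsNormalizedEigenform →
    ∃ g : CuspForm (CongruenceSubgroup.Gamma0 R) 2, g.IsNormalizedEigenform ∧
      ∀ ℓ : ℕ, ℓ.Prime → ¬ ℓ ∣ R → ModularFormClass.qCoeff g ℓ = ModularFormClass.qCoeff f ℓ := by
  induction d using Nat.strong_induction_on with
  | _ d ih =>
    intro M R _ hR hRM f hf
    by_cases hd1 : d = 1
    · subst hd1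
      rw [mul_one] at hRM
      subst hRM
      exact ⟨f, hf, fun _ _ _ => rfl⟩
    · have hR0 : R ≠ 0 := hR.ne_zero
      have hd0 : d ≠ 0 := by
        rintro rfl
        rw [mul_zero] at hRM
        exact hR0 hRM
      obtain ⟨q, hq, hqd⟩ := Nat.exists_prime_and_dvd hd1
      obtain ⟨d', rfl⟩ := hqd
      have hd'0 : d' ≠ 0 := fun h => hd0 (by rw [h, mul_zero])
      have hqM : ¬ q ∣ M := by
        intro hqM
        obtain ⟨M', rfl⟩ := hqM
        have hsq : q * q ∣ R := ⟨M' * d', by rw [hRM]; ring⟩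
        exact hq.one_lt.ne' (Nat.isUnit_iff.mp (hR q hsq))
      obtain ⟨f', hf', hff'⟩ := Fermat.Agent.S59.exists_pStabilisation hq hqM f hf
      haveI : NeZero (M * q) := ⟨Nat.mul_ne_zero (NeZero.ne M) hq.ne_zero⟩
      have hlt : d' < q * d' := by
        have := hq.one_lt
        nlinarith [Nat.pos_of_ne_zero hd'0]
      obtain ⟨g, hg, hgf⟩ := ih d' hlt (M * q) R hR (by rw [hRM]; ring) f' hf'
      refine ⟨g, hg, fun ℓ hℓ hℓR => ?_⟩
      have hℓq : ℓ ≠ q := by
        rintro rfl
        exact hℓR ⟨M * d', by rw [hRM]; ring⟩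
      rw [hgf ℓ hℓ hℓR, hff' ℓ hℓ hℓq]

/-- **Leaf H3**: stabilisation up to a squarefree level. -/
theorem exists_stab_of_dvd {M R : ℕ} [NeZero M] (hR : Squarefree R) (hMR : M ∣ R)
    (f : CuspForm (CongruenceSubgroup.Gamma0 M) 2) (hf : f.IsNormalizedEigenform) :
    ∃ g : CuspForm (CongruenceSubgroup.Gamma0 R) 2, g.IsNormalizedEigenform ∧
      ∀ ℓ : ℕ, ℓ.Prime → ¬ ℓ ∣ R → ModularFormClass.qCoeff g ℓ = ModularFormClass.qCoeff f ℓ := by
  obtain ⟨d, hd⟩ := hMR
  exact exists_stab_of_eq_mul d M R hR hd f hf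

end Fermat.Agent.S58
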