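import Mathlib
import Fermat.Agent.S22
import Fermat.Agent.S35
import Fermat.Agent.S35.SMO.EigenChar
import Fermat.Agent.S35.SMO.Point
import Fermat.Agent.Lib.Frobenius.Exists
import Fermat.Agent.S58.Defs
import Fermat.Agent.S58.Descent
import Fermat.Agent.S58.Compare
import Fermat.Agent.S58.ApBound
import Fermat.Agent.S58.Stab

/-!
# S58 (conductor-level matching) from the statement of S36

`Fermat.Agent.S58.s58_of_s36 : S36Statement → S58Statement`.

Route (`NOTES/blueprint-S58.md`): from the eigenform `g₀` of level `N` pass to a newform `h` of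
level `M ∣ N` with the same eigenvalues away from `N` (`Descent.lean`); compare the `lam`-adic
representations attached to `h` (S35, S36) with the Tate module of `W` (`Compare.lean`):

* (ALL) `a_ℓ(h) = a_ℓ(W)` for every good prime `ℓ ∤ M`;
* (SQF) `M` is squarefree: at `q² ∥ M` S36 (at `lam = p`) gives a representation which is not
  unipotent on inertia at `q`, but the Tate module of a semistable curve is;
* (BAD) every prime `q ∣ M` is bad for `W`: at `q ∥ M` S35 gives `a_q(W) = ±(q + 1)`, which is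
  impossible (`ApBound.lean`, helper38);

hence `M ∣ rad Δ`, and `h` is stabilised up to level `rad Δ` (`Stab.lean`, helper38).
-/

set_option autoImplicit false
set_option linter.style.haveILetI false
set_option linter.unusedSectionVars false

noncomputable section

namespace Fermat.Agent.S58

open Polynomial IsLocalRing CuspForm ModularFormClass CongruenceSubgroup
  Fermat.Agent.S35SMO

local notation "GQ" => (AlgebraicClosure ℚ ≃ₐ[ℚ] AlgebraicClosure ℚ)
local notation "Qbar" => AlgebraicClosure ℚ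

/-- The data shared by all steps: a normalised eigenform `h` of level `M ∣ N` whose eigenvalues
at the primes `ℓ ∤ N` are those of `W`; all bad primes of `W` divide `N`. -/
structure Ctx (W : WeierstrassCurve ℤ) (N M : ℕ) (h : CuspForm (Gamma0 M) 2) : Prop where
  hΔ : W.Δ ≠ 0
  hN0 : N ≠ 0
  hMN : M ∣ N
  hbad : ∀ ℓ : ℕ, ℓ.Prime → (ℓ : ℤ) ∣ W.Δ → ℓ ∣ N
  hh : h.IsNormalizedEigenform
  hag : ∀ ℓ : ℕ, ℓ.Prime → ¬ ℓ ∣ N → qCoeff h ℓ = (W.apOfModel ℓ : ℂ)

variable {W : WeierstrassCurve ℤ} {N M : ℕ} [NeZero M] {h : CuspForm (Gamma0 M) 2}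

theorem Ctx.not_dvd_of_not_mem (c : Ctx W N M h) {lam ℓ : ℕ} (hℓ : ℓ.Prime)
    (hℓT : ℓ ∉ insert lam N.primeFactors) : ℓ ≠ lam ∧ ¬ ℓ ∣ N := by
  rw [Finset.mem_insert, not_or] at hℓT
  exact ⟨hℓT.1, fun hd => hℓT.2 (Nat.mem_primeFactors.mpr ⟨hℓ, hd, c.hN0⟩)⟩

theorem Ctx.mem_of_dvd (_c : Ctx W N M h) (lam : ℕ) {q : ℕ} (hq : q.Prime) (hqM : q ∣ M) :
    q ∈ insert lam M.primeFactors :=
  Finset.mem_insert_of_mem (Nat.mem_primeFactors.mpr ⟨hq, hqM, NeZero.ne M⟩)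

/-- An attached representation satisfies the hypothesis of the comparison lemmas. -/
theorem Ctx.compare_hyp (c : Ctx W N M h) (lam : ℕ)
    {O' O'' : Type} [CommRing O'] [CommRing O''] [IsLocalRing O''] [Algebra O' O'']
    (iota : (eigenChar c.hh (↑(insert lam M.primeFactors) : Set ℕ)).range →+* O')
    (ρ : GaloisRepAdic O'')
    (hatt : ∀ (ℓ : ℕ) (hℓ : ℓ.Prime) (_hℓlam : ℓ ≠ lam) (hℓM : ¬ ℓ ∣ M)
      (hℓS : ℓ ∉ (↑(insert lam M.primeFactors) : Set ℕ)),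
      ∀ A : ValuationSubring Qbar, A.LiesOverPrime ℓ → ∀ σ : GQ, A.IsFrobeniusAt σ ℓ →
        LinearMap.charpoly (ρ.ρ σ) =
          X ^ 2 - C (algebraMap O' O'' ((iota.comp (eigenChar c.hh _).rangeRestrict)
            (heckeAlgebra.T hℓ hℓM hℓS))) * X + C ((ℓ : O''))) :
    ∀ ℓ : ℕ, ℓ.Prime → ℓ ∉ insert lam N.primeFactors → W.IsGoodPrimeFor ℓ ∧ ℓ ≠ lam ∧
      ∀ A : ValuationSubring Qbar, A.LiesOverPrime ℓ → ∀ σ : GQ, A.IsFrobeniusAt σ ℓ →
        LinearMap.charpoly (ρ.ρ σ) =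
          X ^ 2 - C (((W.apOfModel ℓ : ℤ) : O'')) * X + C ((ℓ : O'')) := by
  intro ℓ hℓ hℓT
  obtain ⟨hℓlam, hℓN⟩ := c.not_dvd_of_not_mem hℓ hℓT
  have hℓM : ¬ ℓ ∣ M := fun hd => hℓN (hd.trans c.hMN)
  have hℓS : ℓ ∉ (↑(insert lam M.primeFactors) : Set ℕ) := by
    rw [Finset.mem_coe, Finset.mem_insert, not_or]
    exact ⟨hℓlam, fun hm => hℓM (Nat.mem_primeFactors.mp hm).2.1⟩
  refine ⟨fun hd => hℓN (c.hbad ℓ hℓ hd), hℓlam, fun A hA σ hσ => ?_⟩
  rw [hatt ℓ hℓ hℓlam hℓM hℓS A hA σ hσ,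
    attached_coeff_eq _ iota _ (W.apOfModel ℓ) ((eigenChar_T c.hh hℓ hℓM hℓS).trans
      (c.hag ℓ hℓ hℓN))]

/-- `lam ∈ 𝔪` is inherited along a local homomorphism. -/
theorem natCast_mem_of_isLocalHom {O' O'' : Type} [CommRing O'] [IsLocalRing O'] [CommRing O'']
    [IsLocalRing O''] [Algebra O' O''] [IsLocalHom (algebraMap O' O'')] {lam : ℕ}
    (h : (lam : O') ∈ maximalIdeal O') : (lam : O'') ∈ maximalIdeal O'' := by
  have e : (lam : O'') = algebraMap O' O'' (lam : O') := by rw [map_natCast]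
  rw [e, mem_maximalIdeal, map_mem_nonunits_iff]
  exact h

theorem finite_range_eigenChar' {h : CuspForm (Gamma0 M) 2} (hh : h.IsNormalizedEigenform)
    (S : Set ℕ) : Module.Finite ℤ (eigenChar hh S).range := by
  haveI : Module.Finite ℤ (heckeAlgebra M 2 S) := Fermat.Agent.S22.result M 2 S
  exact Module.Finite.of_surjective
    ((eigenChar hh S).rangeRestrict.toAddMonoidHom.toIntLinearMap)
    (eigenChar hh S).rangeRestrict_surjective

/-- an auxiliary prime different from `q` -/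
theorem exists_prime_ne (q : ℕ) : ∃ lam : ℕ, lam.Prime ∧ q ≠ lam := by
  by_cases h2 : q = 2
  · exact ⟨3, Nat.prime_three, by omega⟩
  · exact ⟨2, Nat.prime_two, h2⟩

/-- **(ALL)** `a_ℓ(h) = a_ℓ(W)` at every good prime `ℓ ∤ M`. -/
theorem Ctx.qCoeff_eq_of_good (c : Ctx W N M h) (hnew : h.IsNewform) {ℓ : ℕ} (hℓ : ℓ.Prime)
    (hℓM : ¬ ℓ ∣ M) (hgood : W.IsGoodPrimeFor ℓ) : qCoeff h ℓ = (W.apOfModel ℓ : ℂ) := by
  classical
  obtain ⟨lam, hlam, hℓlam⟩ := exists_prime_ne ℓ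
  haveI : Fact lam.Prime := ⟨hlam⟩
  set S : Finset ℕ := insert lam M.primeFactors with hS
  haveI := finite_range_eigenChar' c.hh (↑S : Set ℕ)
  obtain ⟨O', j1, j2, j3, j4, j5, j6, hlamO', ι, hι⟩ :=
    exists_dvr_point (eigenChar c.hh (↑S : Set ℕ)).range lam hlam
  obtain ⟨O'', i1, i2, i3, i4, i5, i6, i7, i8, i9, hinj, ρ, hρ, -⟩ :=
    Fermat.Agent.S35.result hnew lam S O' hlamO' (eigenChar c.hh (↑S : Set ℕ))
      (fun ℓ hℓ hℓM hℓS => eigenChar_T c.hh hℓ hℓM hℓS) ι (Finset.mem_insert_self _ _)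
      (fun q hq hqM => c.mem_of_dvd lam hq hqM)
  have hlamO'' : (lam : O'') ∈ maximalIdeal O'' := natCast_mem_of_isLocalHom hlamO'
  have hcmp := c.compare_hyp lam ι ρ (fun ℓ hℓ _ hℓM hℓS => hρ ℓ hℓ hℓM hℓS)
  obtain ⟨A, σ, hA, hσ⟩ := Fermat.Agent.FrobExists.exists_frobenius ℓ hℓ
  have hℓS : ℓ ∉ (↑S : Set ℕ) := by
    rw [Finset.mem_coe, hS, Finset.mem_insert, not_or]
    exact ⟨hℓlam, fun hm => hℓM (Nat.mem_primeFactors.mp hm).2.1⟩
  have e1 := trace_eq_of_charpoly_eq ρ.finrank_eq _ _ _ (hρ ℓ hℓ hℓM hℓS A hA σ hσ)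
  have e2 := trace_eq_of_charpoly_eq ρ.finrank_eq _ _ _
    (charpoly_frobenius_of_compare c.hΔ hlamO'' ρ _ hcmp hℓ hℓlam hgood A hA σ hσ)
  have e3 : algebraMap O' O'' ((ι.comp (eigenChar c.hh (↑S : Set ℕ)).rangeRestrict)
      (heckeAlgebra.T hℓ hℓM hℓS)) =
      algebraMap O' O'' (ι ((W.apOfModel ℓ : ℤ) : (eigenChar c.hh (↑S : Set ℕ)).range)) := by
    rw [← e1, e2, map_intCast, map_intCast]
  have e4 := hι (hinj e3)
  have e5 := congrArg (Subtype.val) e4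
  rw [RingHom.coe_rangeRestrict, eigenChar_T c.hh hℓ hℓM hℓS] at e5
  rw [e5]
  simp

/-- **(SQF)** the level of the newform is squarefree. -/
theorem Ctx.squarefree (c : Ctx W N M h) (hnew : h.IsNewform) (h36 : S36Statement)
    (hss : W.IsSemistableModel) (p : ℕ) [Fact p.Prime] (hp2 : p ≠ 2)
    (hirr : W.ModRepIsIrreducible p) (hp2N : ¬ p ^ 2 ∣ N)
    (hN3 : ∀ q : ℕ, q.Prime → ¬ q ^ 3 ∣ N) : Squarefree M := by
  classical
  rw [Nat.squarefree_iff_prime_squarefree]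
  intro q hq hqq
  have hM0 : M ≠ 0 := NeZero.ne M
  have hq2 : q ^ 2 ∣ M := by rwa [pow_two]
  have hqp : q ≠ p := by
    rintro rfl
    exact hp2N (hq2.trans c.hMN)
  have hfac : M.factorization q = 2 := by
    apply le_antisymm
    · by_contra hlt
      have hlt' : 3 ≤ M.factorization q := by omega
      exact hN3 q hq (((hq.pow_dvd_iff_le_factorization hM0).mpr hlt').trans c.hMN)
    · exact (hq.pow_dvd_iff_le_factorization hM0).mp hq2
  have hpP : p.Prime := Fact.out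
  set S : Finset ℕ := insert p M.primeFactors with hS
  haveI := finite_range_eigenChar' c.hh (↑S : Set ℕ)
  obtain ⟨O', j1, j2, j3, j4, j5, j6, hpO', ι, hι⟩ :=
    exists_dvr_point (eigenChar c.hh (↑S : Set ℕ)).range p hpP
  obtain ⟨O'', i1, i2, i3, i4, i5, i6, i7, i8, i9, hinj, ρ, hρ, hnot⟩ :=
    h36 hnew p S O' hpO' hp2 (eigenChar c.hh (↑S : Set ℕ))
      (fun ℓ hℓ hℓM hℓS => eigenChar_T c.hh hℓ hℓM hℓS) ι (Finset.mem_insert_self _ _)
      (fun q hq hqM => c.mem_of_dvd p hq hqM)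
      (fun O'' _ _ _ _ _ _ _ _ _ _ ρ hatt => by
        have hpO'' : (p : O'') ∈ maximalIdeal O'' := natCast_mem_of_isLocalHom hpO'
        have hcmp := c.compare_hyp p ι ρ hatt
        exact ⟨residual_isAbsolutelyIrreducible_of_compare c.hΔ hpO'' ρ _ hcmp hp2 hirr,
          residual_isOdd_of_compare c.hΔ hpO'' ρ _ hcmp hp2⟩)
  have hpO'' : (p : O'') ∈ maximalIdeal O'' := natCast_mem_of_isLocalHom hpO'
  have hcmp := c.compare_hyp p ι ρ (fun ℓ hℓ _ hℓM hℓS => hρ ℓ hℓ hℓM hℓS)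
  exact hnot q hq hqp hfac
    (isUnipotentOnInertiaAt_of_compare c.hΔ hpO'' ρ _ hcmp hss hp2 hq hqp)

/-- **(BAD)** every prime dividing the level of the newform is a bad prime of `W`. -/
theorem Ctx.bad_of_dvd (c : Ctx W N M h) (hnew : h.IsNewform) (hsq : Squarefree M)
    {q : ℕ} (hq : q.Prime) (hqM : q ∣ M) : (q : ℤ) ∣ W.Δ := by
  classical
  by_contra hgood
  obtain ⟨lam, hlam, hqlam⟩ := exists_prime_ne q
  haveI : Fact lam.Prime := ⟨hlam⟩
  haveI : Fact q.Prime := ⟨hq⟩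
  set S : Finset ℕ := insert lam M.primeFactors with hS
  haveI := finite_range_eigenChar' c.hh (↑S : Set ℕ)
  obtain ⟨O', j1, j2, j3, j4, j5, j6, hlamO', ι, hι⟩ :=
    exists_dvr_point (eigenChar c.hh (↑S : Set ℕ)).range lam hlam
  obtain ⟨O'', i1, i2, i3, i4, i5, i6, i7, i8, i9, hinj, ρ, hρ, hρq⟩ :=
    Fermat.Agent.S35.result hnew lam S O' hlamO' (eigenChar c.hh (↑S : Set ℕ))
      (fun ℓ hℓ hℓM hℓS => eigenChar_T c.hh hℓ hℓM hℓS) ι (Finset.mem_insert_self _ _)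
      (fun q hq hqM => c.mem_of_dvd lam hq hqM)
  have hlamO'' : (lam : O'') ∈ maximalIdeal O'' := natCast_mem_of_isLocalHom hlamO'
  have hcmp := c.compare_hyp lam ι ρ (fun ℓ hℓ _ hℓM hℓS => hρ ℓ hℓ hℓM hℓS)
  obtain ⟨A, σ, hA, hσ⟩ := Fermat.Agent.FrobExists.exists_frobenius q hq
  have hq2 : ¬ q ^ 2 ∣ M := by
    intro hd
    rw [pow_two] at hd
    exact (Nat.squarefree_iff_prime_squarefree.mp hsq) q hq hd
  have e2 := trace_eq_of_charpoly_eq ρ.finrank_eq _ _ _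
    (charpoly_frobenius_of_compare c.hΔ hlamO'' ρ _ hcmp hq hqlam hgood A hA σ hσ)
  obtain ⟨hne1, hne2⟩ := apOfModel_ne_add_one W q
  rcases hρq q hq hqlam hqM hq2 A hA σ hσ with h1 | h1
  · have e1 := trace_eq_of_charpoly_eq ρ.finrank_eq _ _ _ h1
    rw [e2] at e1
    apply hne1
    have : ((W.apOfModel q : ℤ) : O'') = (((q : ℤ) + 1 : ℤ) : O'') := by
      rw [e1]; push_cast; ring
    exact Int.cast_injective this
  · have h1' : LinearMap.charpoly (ρ.ρ σ) =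
        X ^ 2 - C (-((q : O'') + 1)) * X + C ((q : O'')) := by
      rw [h1, map_neg]; ring
    have e1 := trace_eq_of_charpoly_eq ρ.finrank_eq _ _ _ h1'
    rw [e2] at e1
    apply hne2
    have : ((W.apOfModel q : ℤ) : O'') = ((-((q : ℤ) + 1) : ℤ) : O'') := by
      rw [e1]; push_cast; ring
    exact Int.cast_injective this

/-- **S58 from S36.** -/
theorem s58_of_s36 (h36 : S36Statement) : S58Statement := by
  classical
  intro W hss N p _ hp2 hirr hp2N hN hbad hN3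
  -- `N ≠ 0`, `Δ ≠ 0`
  have hN0 : N ≠ 0 := by
    rintro rfl
    exact hN3 2 Nat.prime_two (dvd_zero _)
  have hΔ : W.Δ ≠ 0 := by
    intro h0
    obtain ⟨ℓ, hℓN, hℓ⟩ := Nat.exists_infinite_primes (N + 1)
    have := Nat.le_of_dvd (Nat.pos_of_ne_zero hN0) (hbad ℓ hℓ (by rw [h0]; exact dvd_zero _))
    omega
  obtain ⟨g₀, hg₀, hag₀⟩ := hN
  obtain ⟨M, hMN, h, hnew, hag⟩ := exists_newform_dvd hN0 g₀ hg₀
  haveI : NeZero M := ⟨fun h0 => hN0 (Nat.eq_zero_of_zero_dvd (h0 ▸ hMN))⟩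
  have c : Ctx W N M h :=
    { hΔ := hΔ, hN0 := hN0, hMN := hMN, hbad := hbad, hh := hnew.1
      hag := fun ℓ hℓ hℓN => by
        rw [hag ℓ hℓ hℓN]
        exact hag₀ ℓ hℓ (fun hd => hℓN (hbad ℓ hℓ hd)) hℓN }
  have hsq : Squarefree M := c.squarefree hnew h36 hss p hp2 hirr hp2N hN3
  -- `M ∣ rad Δ`
  have hR0 : W.conductorLevel ≠ 0 := W.conductorLevel_pos.ne'
  have hMR : M ∣ W.conductorLevel := by
    rw [← Nat.factorization_le_iff_dvd (NeZero.ne M) hR0]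
    intro q
    by_cases hq : q.Prime
    · by_cases hqM : q ∣ M
      · have h1 : M.factorization q ≤ 1 := (Nat.squarefree_iff_factorization_le_one
          (NeZero.ne M)).mp hsq q
        have h2 : q ∣ W.conductorLevel :=
          (W.prime_dvd_conductorLevel_iff hΔ hq).mpr (c.bad_of_dvd hnew hsq hq hqM)
        have h3 : 1 ≤ W.conductorLevel.factorization q :=
          (hq.dvd_iff_one_le_factorization hR0).mp h2
        exact h1.trans h3
      · rw [Nat.factorization_eq_zero_of_not_dvd hqM]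
        exact Nat.zero_le _
    · rw [Nat.factorization_eq_zero_of_not_prime _ hq]
      exact Nat.zero_le _
  obtain ⟨g, hg, hgh⟩ := exists_stab_of_dvd W.squarefree_conductorLevel hMR h hnew.1
  refine ⟨g, hg, fun ℓ hℓ hgood hℓR => ?_⟩
  rw [hgh ℓ hℓ hℓR]
  exact c.qCoeff_eq_of_good hnew hℓ (fun hd => hℓR (hd.trans hMR)) hgood

end Fermat.Agent.S58
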